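import Fermat.Agent.H9.E6.Interfaces3
import Fermat.Agent.H68.PoleDict
import Fermat.Agent.H7.ESD.TameJ
import Fermat.Agent.H16.ESDRRModL
import Fermat.Agent.H58.RR.ESD
import Fermat.Agent.H18.ExInst

/-!
# P-ES, E6-COUNT (row 750): `LiftJStatement → GenusUncondJStatement` (helper90)

The dimension count: a `k`-basis of `L_k(m B_k)` lifts to an `L`-independent family in
`L_L(m B_L)` (reductions of independent elements are independent), and Riemann's theorem on
both sides gives `g_L ≤ g_k`.
-/

set_option autoImplicit false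
set_option synthInstance.maxHeartbeats 400000
set_option maxHeartbeats 1600000
set_option linter.unusedSectionVars false
set_option linter.style.haveILetI false

noncomputable section

open AlgebraicCurve ModularCurve IntermediateField

namespace Fermat.Agent.H90.E6

open Fermat.Agent.H66 (vGaussRing vGaussRed)

/-- **the count**: if every element of `U_k ⊆ F_k` is the reduction of an element of
`U_L ⊆ F_L` lying in the Gauss ring, then `dim_k U_k ≤ dim_L U_L`. -/
theorem finrank_le_of_lift {L : Type} [Field L] (A : ValuationSubring L)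
    (FL : IntermediateField L (LaurentSeries L))
    (Fk : IntermediateField (IsLocalRing.ResidueField ↥A)
      (LaurentSeries (IsLocalRing.ResidueField ↥A)))
    (UL : Submodule L ↥FL) (Uk : Submodule (IsLocalRing.ResidueField ↥A) ↥Fk)
    [Module.Finite L UL] [Module.Finite (IsLocalRing.ResidueField ↥A) Uk]
    (h : ∀ y ∈ Uk, ∃ u ∈ UL, ∃ hu : (u : LaurentSeries L) ∈ vGaussRing A,
      vGaussRed A ⟨(u : LaurentSeries L), hu⟩ =
        (y : LaurentSeries (IsLocalRing.ResidueField ↥A))) :
    Module.finrank (IsLocalRing.ResidueField ↥A) Uk ≤ Module.finrank L UL := by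
  classical
  let b := Module.finBasis (IsLocalRing.ResidueField ↥A) Uk
  have hb : ∀ i, ((b i : Uk) : Fk) ∈ Uk := fun i => (b i).2
  choose u huU hu hred using fun i => h _ (hb i)
  -- independence of the basis inside `F_k`
  have h0 : LinearIndependent (IsLocalRing.ResidueField ↥A) (fun i => ((b i : Uk) : Fk)) :=
    b.linearIndependent.map' Uk.subtype (Submodule.ker_subtype Uk)
  have h1 := (Fermat.Agent.H18.xr_linearIndependent_coe_iff Fk _).mp h0
  have hind_k : LinearIndependent (IsLocalRing.ResidueField ↥A)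
      (fun i => vGaussRed A ⟨(u i : LaurentSeries L), hu i⟩) := by
    have e : (fun i => vGaussRed A ⟨(u i : LaurentSeries L), hu i⟩) =
        fun i => (((b i : Uk) : Fk) : LaurentSeries (IsLocalRing.ResidueField ↥A)) :=
      funext hred
    rw [e]
    exact h1
  have hind_L := Fermat.Agent.H66.linearIndependent_of_vGaussRed (A := A)
    (fun i => (⟨(u i : LaurentSeries L), hu i⟩ : vGaussRing A)) hind_k
  have hind_F : LinearIndependent L u :=
    (Fermat.Agent.H18.xr_linearIndependent_coe_iff FL u).mpr hind_L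
  have hind_U : LinearIndependent L (fun i => (⟨u i, huU i⟩ : UL)) := by
    apply LinearIndependent.of_comp UL.subtype
    exact hind_F
  have := hind_U.fintype_card_le_finrank
  simpa using this

/-- **E6-COUNT.** -/
theorem genusUncondJ_of_liftJ (hLift : Fermat.Agent.H9.E6.LiftJStatement) :
    Fermat.Agent.H9.E6.GenusUncondJStatement := by
  intro N _ ℓ _ hℓN h5 A hA
  have hℓ : ℓ.Prime := Fact.out
  -- the `k`-side
  haveI : IsAlgClosed (IsLocalRing.ResidueField ↥A) :=
    Fermat.Agent.H89.isAlgClosed_residueField A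
  haveI : CharP (IsLocalRing.ResidueField ↥A) ℓ :=
    Fermat.Agent.H89.charP_residueField_of_liesOverPrime A ℓ hA
  haveI : Infinite (IsLocalRing.ResidueField ↥A) := IsAlgClosed.instInfinite
  have hM : Fermat.Agent.H27.HasHeckeData (IsLocalRing.ResidueField ↥A) :=
    Fermat.Agent.H67.hasHeckeData_of_complex Fermat.Agent.H17.hasHeckeData_complex _
  obtain ⟨htr_k, hfin_k, hsep_k⟩ :=
    Fermat.Agent.H7.ESD.tg_ffModL_explicit (IsLocalRing.ResidueField ↥A) N ℓ hℓN hM
  have hpsi_k :=
    Fermat.Agent.H7.ESD.tg_dedekindPsi_le_finrank (IsLocalRing.ResidueField ↥A) N ℓ hℓN hM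
  obtain ⟨Bk, hBk_deg, hBk⟩ := Fermat.Agent.H68.poleDict (IsLocalRing.ResidueField ↥A)
    ↥(modularFunctionFieldFullC (IsLocalRing.ResidueField ↥A) N) _ htr_k hfin_k hsep_k
  have pk := Fermat.Agent.H58.riemannPackage_of_rrHyp
    (Fermat.Agent.H16.rrModLStatement N ℓ hℓN A hA).2
  -- the `L`-side
  obtain ⟨htr_L, hfin_L, -⟩ := Fermat.Agent.H23.degreeStatement_holds N
  haveI := hfin_L
  have hsep_L : Algebra.IsSeparable
      (AlgebraicClosure ℚ)⟮Fermat.Agent.H23.jBar N⟯ ↥(modularFunctionFieldBar N) :=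
    inferInstance
  have hpsi_L := Fermat.Agent.H7.ESD.tg_finrank_jBar N
  obtain ⟨BL, hBL_deg, hBL⟩ := Fermat.Agent.H68.poleDict (AlgebraicClosure ℚ)
    ↥(modularFunctionFieldBar N) _ htr_L hfin_L hsep_L
  have pL := Fermat.Agent.H58.riemannPackage_of_rrHyp
    (Fermat.Agent.H58.rrHyp_modularFunctionFieldBar N)
  obtain ⟨c, hc⟩ := pL.eq_of_large
  obtain ⟨m₀, hm₀⟩ := hLift N ℓ hℓN h5 A hA
  -- the choice of `m`
  set m : ℕ := max m₀ c.toNat with hm
  have hm1 : m₀ ≤ m := le_max_left _ _
  have hm2 : c ≤ (m : ℤ) := by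
    have : c.toNat ≤ m := le_max_right _ _
    have h1 : c ≤ (c.toNat : ℤ) := Int.self_le_toNat c
    exact h1.trans (by exact_mod_cast this)
  -- the count
  haveI := pk.finite (m • Bk)
  haveI := pL.finite (m • BL)
  have hcount := finrank_le_of_lift A (modularFunctionFieldBar N)
    (modularFunctionFieldFullC (IsLocalRing.ResidueField ↥A) N)
    (riemannRochSpace (m • BL)) (riemannRochSpace (m • Bk)) (by
      intro y hy
      obtain ⟨hy1, hy2⟩ := (hBk m y).mp hy
      obtain ⟨u, hu, hred, hu1, hu2⟩ := hm₀ m hm1 y hy1 hy2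
      exact ⟨u, (hBL m u).mpr ⟨hu1, hu2⟩, hu, hred⟩)
  -- Riemann on both sides
  have hRk := pk.riemann (m • Bk)
  have hRL := hc (m • BL) (by
    rw [map_nsmul, hBL_deg, hpsi_L, nsmul_eq_mul]
    have hpos : 1 ≤ dedekindPsi N := by
      rw [← hpsi_L]
      exact Module.finrank_pos
    have h1 : (m : ℤ) * 1 ≤ (m : ℤ) * (dedekindPsi N : ℤ) :=
      mul_le_mul_of_nonneg_left (by exact_mod_cast hpos) (by positivity)
    linarith)
  rw [map_nsmul, hBk_deg, nsmul_eq_mul] at hRk
  rw [map_nsmul, hBL_deg, hpsi_L, nsmul_eq_mul] at hRL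
  have hmono : (m : ℤ) * (dedekindPsi N : ℤ) ≤ (m : ℤ) *
      (Module.finrank
        (IsLocalRing.ResidueField ↥A)⟮(⟨jqModC (IsLocalRing.ResidueField ↥A),
          jqModC_mem_full _ N⟩ : ↥(modularFunctionFieldFullC (IsLocalRing.ResidueField ↥A) N))⟯
        ↥(modularFunctionFieldFullC (IsLocalRing.ResidueField ↥A) N) : ℤ) :=
    mul_le_mul_of_nonneg_left (by exact_mod_cast hpsi_k) (by positivity)
  have hcount' : (Module.finrank (IsLocalRing.ResidueField ↥A)
      (riemannRochSpace (m • Bk)) : ℤ) ≤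
      (Module.finrank (AlgebraicClosure ℚ) (riemannRochSpace (m • BL)) : ℤ) := by
    exact_mod_cast hcount
  have : (genusFF (AlgebraicClosure ℚ) ↥(modularFunctionFieldBar N) : ℤ) ≤
      (genusFF (IsLocalRing.ResidueField ↥A)
        ↥(modularFunctionFieldFullC (IsLocalRing.ResidueField ↥A) N) : ℤ) := by
    linarith
  exact_mod_cast this

end Fermat.Agent.H90.E6
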