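import Fermat.Agent.H9.E6.Interfaces4
import Fermat.Agent.H90.E6.Count

/-!
# P-ES, E6-COUNT-GEN (row 922): `CountStatement` for a general coordinate (helper90)

The dimension count of `Fermat.Agent.H90.E6.genusUncondJ_of_liftJ` for general coordinates
`xL ∈ F_L`, `xk ∈ F_k`.
-/

set_option autoImplicit false
set_option synthInstance.maxHeartbeats 400000
set_option maxHeartbeats 1600000
set_option linter.unusedSectionVars false
set_option linter.style.haveILetI false

noncomputable section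

open AlgebraicCurve ModularCurve IntermediateField

namespace Fermat.Agent.H90.E6

open Fermat.Agent.H66 (vGaussRing vGaussRed)

/-- **E6-COUNT, general coordinate.** -/
theorem count : Fermat.Agent.H9.E6.CountStatement := by
  intro N _ ℓ _ hℓN A hA xL xk htr_L hfin_L htr_k hfin_k hsep_k hdeg hLift
  have hℓ : ℓ.Prime := Fact.out
  -- the `k`-side
  haveI : IsAlgClosed (IsLocalRing.ResidueField ↥A) :=
    Fermat.Agent.H89.isAlgClosed_residueField A
  haveI : CharP (IsLocalRing.ResidueField ↥A) ℓ :=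
    Fermat.Agent.H89.charP_residueField_of_liesOverPrime A ℓ hA
  haveI : Infinite (IsLocalRing.ResidueField ↥A) := IsAlgClosed.instInfinite
  haveI := hfin_k
  obtain ⟨Bk, hBk_deg, hBk⟩ := Fermat.Agent.H68.poleDict (IsLocalRing.ResidueField ↥A)
    ↥(modularFunctionFieldFullC (IsLocalRing.ResidueField ↥A) N) _ htr_k hfin_k hsep_k
  have pk := Fermat.Agent.H58.riemannPackage_of_rrHyp
    (Fermat.Agent.H16.rrModLStatement N ℓ hℓN A hA).2
  -- the `L`-side
  haveI := hfin_L
  have hsep_L : Algebra.IsSeparable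
      (AlgebraicClosure ℚ)⟮xL⟯ ↥(modularFunctionFieldBar N) :=
    inferInstance
  obtain ⟨BL, hBL_deg, hBL⟩ := Fermat.Agent.H68.poleDict (AlgebraicClosure ℚ)
    ↥(modularFunctionFieldBar N) _ htr_L hfin_L hsep_L
  have pL := Fermat.Agent.H58.riemannPackage_of_rrHyp
    (Fermat.Agent.H58.rrHyp_modularFunctionFieldBar N)
  obtain ⟨c, hc⟩ := pL.eq_of_large
  obtain ⟨m₀, hm₀⟩ := hLift
  -- the choice of `m`
  set m : ℕ := max m₀ c.toNat with hm
  have hm1 : m₀ ≤ m := le_max_left _ _
  have hm2 : c ≤ (m : ℤ) := by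
    have : c.toNat ≤ m := le_max_right _ _
    have h1 : c ≤ (c.toNat : ℤ) := Int.self_le_toNat c
    exact h1.trans (by exact_mod_cast this)
  -- the count
  haveI := pk.finite (m • Bk)
  haveI := pL.finite (m • BL)
  have hcount := finrank_le_of_lift A (modularFunctionFieldBar N)
    (modularFunctionFieldFullC (IsLocalRing.ResidueField ↥A) N)
    (riemannRochSpace (m • BL)) (riemannRochSpace (m • Bk)) (by
      intro y hy
      obtain ⟨hy1, hy2⟩ := (hBk m y).mp hy
      obtain ⟨u, hu, hred, hu1, hu2⟩ := hm₀ m hm1 y hy1 hy2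
      exact ⟨u, (hBL m u).mpr ⟨hu1, hu2⟩, hu, hred⟩)
  -- Riemann on both sides
  have hRk := pk.riemann (m • Bk)
  have hposL : 1 ≤ Module.finrank (AlgebraicClosure ℚ)⟮xL⟯ ↥(modularFunctionFieldBar N) :=
    Module.finrank_pos
  have hRL := hc (m • BL) (by
    rw [map_nsmul, hBL_deg, nsmul_eq_mul]
    have h1 : (m : ℤ) * 1 ≤ (m : ℤ) *
        (Module.finrank (AlgebraicClosure ℚ)⟮xL⟯ ↥(modularFunctionFieldBar N) : ℤ) :=
      mul_le_mul_of_nonneg_left (by exact_mod_cast hposL) (by positivity)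
    linarith)
  rw [map_nsmul, hBk_deg, nsmul_eq_mul] at hRk
  rw [map_nsmul, hBL_deg, nsmul_eq_mul] at hRL
  have hmono : (m : ℤ) *
      (Module.finrank (AlgebraicClosure ℚ)⟮xL⟯ ↥(modularFunctionFieldBar N) : ℤ) ≤ (m : ℤ) *
      (Module.finrank (IsLocalRing.ResidueField ↥A)⟮xk⟯
        ↥(modularFunctionFieldFullC (IsLocalRing.ResidueField ↥A) N) : ℤ) :=
    mul_le_mul_of_nonneg_left (by exact_mod_cast hdeg) (by positivity)
  have hcount' : (Module.finrank (IsLocalRing.ResidueField ↥A)
      (riemannRochSpace (m • Bk)) : ℤ) ≤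
      (Module.finrank (AlgebraicClosure ℚ) (riemannRochSpace (m • BL)) : ℤ) := by
    exact_mod_cast hcount
  have : (genusFF (AlgebraicClosure ℚ) ↥(modularFunctionFieldBar N) : ℤ) ≤
      (genusFF (IsLocalRing.ResidueField ↥A)
        ↥(modularFunctionFieldFullC (IsLocalRing.ResidueField ↥A) N) : ℤ) := by
    linarith
  exact_mod_cast this

end Fermat.Agent.H90.E6
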